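/-
Cluster L (S41, level raising), WP DEG-1.  Owner: helper88.

The two corestrictions `β₁ = coresPar`, `β₂ = coresParD : HomPar (N q) → HomPar N`
(`L.IsCoresPair`), and `β₁ ∘ res = index = β₂ ∘ res_δ`.
-/
import Fermat.Agent.MUL.Orig.L.Degen.Bridge
import Fermat.Agent.MUL.Orig.F3.OpenStab

set_option autoImplicit false

noncomputable section

namespace Fermat.Agent.LDeg

open CongruenceSubgroup Matrix.SpecialLinearGroup ModularCurve.Period Fermat.Agent.F3EC
open scoped MatrixGroups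

theorem trace_conj_SL (t g : SL(2, ℤ)) :
    ((t⁻¹ * g * t : SL(2, ℤ)) : Matrix (Fin 2) (Fin 2) ℤ).trace =
      (g : Matrix (Fin 2) (Fin 2) ℤ).trace := by
  rw [Matrix.SpecialLinearGroup.coe_mul, Matrix.trace_mul_comm,
    ← Matrix.SpecialLinearGroup.coe_mul, mul_inv_cancel_left]

theorem trace_conj_pow_sq {Γ : Subgroup SL(2, ℤ)} (γ t : Γ) (n : ℕ)
    (hγ : ((γ : SL(2, ℤ)) : Matrix (Fin 2) (Fin 2) ℤ).trace ^ 2 = 4) :
    (((t⁻¹ * γ ^ n * t : Γ) : SL(2, ℤ)) : Matrix (Fin 2) (Fin 2) ℤ).trace ^ 2 = 4 := by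
  have h1 : ((t⁻¹ * γ ^ n * t : Γ) : SL(2, ℤ)) =
      (t : SL(2, ℤ))⁻¹ * (γ : SL(2, ℤ)) ^ n * (t : SL(2, ℤ)) := rfl
  rw [h1, trace_conj_SL]
  exact trace_pow_sq_eq_four _ hγ n

variable (N q : ℕ)

theorem incl_injective : Function.Injective (L.incl N q) :=
  Subgroup.inclusion_injective _

section Parabolic

variable {N q} {A : Type*} [AddCommGroup A]

theorem coresAll_parabolic {c : Additive (Gamma0 (N * q)) →+ A}
    (hc : IsParabolicHom (Gamma0 (N * q)) c) :
    IsParabolicHom (Gamma0 N) (L.coresAll N q A c) := by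
  intro γ hγ
  refine coresFun_apply_eq_zero c γ fun n t x _ hx => hc x ?_
  have h1 : ((x : SL(2, ℤ)) : Matrix (Fin 2) (Fin 2) ℤ).trace =
      (((L.incl N q x : Gamma0 N) : SL(2, ℤ)) : Matrix (Fin 2) (Fin 2) ℤ).trace := rfl
  rw [h1, hx]
  exact trace_conj_pow_sq γ t n hγ

theorem coresAllD_parabolic [NeZero q] {c : Additive (Gamma0 (N * q)) →+ A}
    (hc : IsParabolicHom (Gamma0 (N * q)) c) :
    IsParabolicHom (Gamma0 N) (L.coresAllD N q A c) := by
  intro γ hγ
  refine coresFun_apply_eq_zero c γ fun n t x _ hx => hc x ?_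
  rw [← L.trace_inclD, hx]
  exact trace_conj_pow_sq γ t n hγ

end Parabolic

section Beta

/-- `β₁` as an additive map. -/
def coresParAdd : HomPar (N * q) →+ HomPar N where
  toFun c := ⟨L.coresAll N q ℤ c.1, coresAll_parabolic c.2⟩
  map_zero' := Subtype.ext (coresFun_zero (L.incl N q) ℤ)
  map_add' c c' := Subtype.ext (coresFun_add (L.incl N q) ℤ c.1 c'.1)

/-- `β₂` as an additive map. -/
def coresParDAdd [NeZero q] : HomPar (N * q) →+ HomPar N where
  toFun c := ⟨L.coresAllD N q ℤ c.1, coresAllD_parabolic c.2⟩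
  map_zero' := Subtype.ext (coresFun_zero (L.inclD N q) ℤ)
  map_add' c c' := Subtype.ext (coresFun_add (L.inclD N q) ℤ c.1 c'.1)

/-- `β₁ : HomPar (N q) → HomPar N`, the corestriction along the inclusion. -/
def coresPar : HomPar (N * q) →ₗ[ℤ] HomPar N := (coresParAdd N q).toIntLinearMap

/-- `β₂ : HomPar (N q) → HomPar N`, the corestriction along `γ ↦ δ γ δ⁻¹`. -/
def coresParD [NeZero q] : HomPar (N * q) →ₗ[ℤ] HomPar N := (coresParDAdd N q).toIntLinearMap

@[simp] theorem coresPar_coe (c : HomPar (N * q)) :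
    ((coresPar N q c : HomPar N) : Additive (Gamma0 N) →+ ℤ) = L.coresAll N q ℤ c.1 := rfl

@[simp] theorem coresParD_coe [NeZero q] (c : HomPar (N * q)) :
    ((coresParD N q c : HomPar N) : Additive (Gamma0 N) →+ ℤ) = L.coresAllD N q ℤ c.1 := rfl

theorem isCoresPair [NeZero q] : L.IsCoresPair N q (coresPar N q) (coresParD N q) :=
  ⟨fun _ => rfl, fun _ => rfl⟩

/-- A pair of corestrictions is unique. -/
theorem IsCoresPair.eq [NeZero q] {β₁ β₂ : HomPar (N * q) →ₗ[ℤ] HomPar N}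
    (h : L.IsCoresPair N q β₁ β₂) : β₁ = coresPar N q ∧ β₂ = coresParD N q :=
  ⟨LinearMap.ext fun c => Subtype.ext (h.coe₁ c), LinearMap.ext fun c => Subtype.ext (h.coe₂ c)⟩

end Beta

section CoresRes

variable {N q} {A : Type*} [AddCommGroup A]

theorem coresAll_resAll (hidx : (L.incl N q).range.index = q + 1)
    (c : Additive (Gamma0 N) →+ A) :
    L.coresAll N q A (L.resAll N q A c) = ((q : ℤ) + 1) • c := by
  have : (L.incl N q).range.FiniteIndex := ⟨by rw [hidx]; exact Nat.succ_ne_zero q⟩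
  have h := coresFun_comp (incl_injective N q) c
  rw [hidx] at h
  have h2 : ((q : ℤ) + 1) • c = (q + 1) • c := by
    rw [← natCast_zsmul]
    push_cast
    rfl
  rw [h2, ← h]
  rfl

theorem coresAllD_resAllD [NeZero q] (hidx : (L.inclD N q).range.index = q + 1)
    (c : Additive (Gamma0 N) →+ A) :
    L.coresAllD N q A (L.resAllD N q A c) = ((q : ℤ) + 1) • c := by
  have : (L.inclD N q).range.FiniteIndex := ⟨by rw [hidx]; exact Nat.succ_ne_zero q⟩
  have h := coresFun_comp (L.inclD_injective N q) c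
  rw [hidx] at h
  have h2 : ((q : ℤ) + 1) • c = (q + 1) • c := by
    rw [← natCast_zsmul]
    push_cast
    rfl
  rw [h2, ← h]
  rfl

theorem coresPar_resPar (hidx : (L.incl N q).range.index = q + 1) (c : HomPar N) :
    coresPar N q (L.resPar N q c) = ((q : ℤ) + 1) • c :=
  Subtype.ext (coresAll_resAll hidx c.1)

theorem coresParD_resParD [NeZero q] (hidx : (L.inclD N q).range.index = q + 1)
    (c : HomPar N) :
    coresParD N q (L.resParD N q c) = ((q : ℤ) + 1) • c :=
  Subtype.ext (coresAllD_resAllD hidx c.1)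

end CoresRes

end Fermat.Agent.LDeg
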