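/-
Cluster L (S41, level raising), piece L1 / DEG-2.  Owner: helper83.

More general lemmas on wreath homs and their realizations.
-/
import Fermat.Agent.MUL.Orig.L.Degen.Wreath
import Fermat.Agent.MUL.F3.FrobDensityLiteFinal

set_option autoImplicit false

noncomputable section

namespace Fermat.Agent.LDeg

variable {G Γ Γ' Γ'' : Type*} [Group G] [Group Γ] [Group Γ'] [Group Γ'']

namespace WreathHom

variable {I I' J : Type*}

/-- Multiplying the family by a central element does not change the realization. -/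
theorem Realizes.center_mul {F : WreathHom Γ Γ' I} {ι : Γ →* G} {ι' : Γ' →* G} {rep : I → G}
    (hF : F.Realizes ι ι' rep) (z : G) (hz : ∀ g, z * g = g * z) :
    F.Realizes ι ι' (fun i => z * rep i) := by
  intro γ i
  show z * rep i * ι γ = ι' (F.elt γ i) * (z * rep (F.perm γ i))
  rw [mul_assoc, hF γ i, ← mul_assoc, ← mul_assoc, hz]

/-- Transport of a realization along a homomorphism of ambient groups. -/
theorem Realizes.map {G' : Type*} [Group G'] {F : WreathHom Γ Γ' I} {ι : Γ →* G}
    {ι' : Γ' →* G} {rep : I → G} (hF : F.Realizes ι ι' rep) (φ : G →* G') :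
    F.Realizes (φ.comp ι) (φ.comp ι') (fun i => φ (rep i)) := by
  intro γ i
  show φ (rep i) * φ (ι γ) = φ (ι' (F.elt γ i)) * φ (rep (F.perm γ i))
  rw [← map_mul, hF γ i, map_mul]

/-- Change of the embedding of `Γ'` by a conjugation. -/
theorem Realizes.of_conj {F : WreathHom Γ Γ' I} {ι : Γ →* G} {ι' ι'' : Γ' →* G} {rep : I → G}
    (hF : F.Realizes ι ι' rep) (d : G) (hd : ∀ e, d * ι' e = ι'' e * d) :
    F.Realizes ι ι'' (fun i => d * rep i) := by
  intro γ i
  show d * rep i * ι γ = ι'' (F.elt γ i) * (d * rep (F.perm γ i))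
  rw [mul_assoc, hF γ i, ← mul_assoc, hd, mul_assoc]

theorem cosetsDistinct_of_conj {ι' ι'' : Γ' →* G} {rep : I → G}
    (h : CosetsDistinct ι' rep) (d : G) (hd : ∀ e, d * ι' e = ι'' e * d) :
    CosetsDistinct ι'' (fun i => d * rep i) := by
  intro i j n hn
  apply h i j n
  have h1 : d * rep i = d * (ι' n * rep j) := by
    rw [← mul_assoc, hd, mul_assoc]
    exact hn
  exact mul_left_cancel h1

/-- A wreath hom `Γ → Γ ≀ Sym I` realized by a family inside `Γ` induces multiplication by
`card I`. -/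
theorem op_eq_card_smul [Fintype I] {F : WreathHom Γ Γ I} {ι : Γ →* G} {rep : I → G}
    (hF : F.Realizes ι ι rep) (hι : Function.Injective ι) (g : I → Γ)
    (hg : ∀ i, rep i = ι (g i)) (A : Type*) [AddCommGroup A] (c : Additive Γ →+ A) :
    F.op A c = Fintype.card I • c := by
  refine AddMonoidHom.ext fun γ => ?_
  obtain ⟨γ, rfl⟩ := Additive.ofMul.surjective γ
  rw [op_apply, AddMonoidHom.smul_apply]
  have key : ∀ i, F.elt γ i = g i * γ * (g (F.perm γ i))⁻¹ := by
    intro i
    have h1 := hF γ i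
    rw [hg, hg, ← map_mul, ← map_mul] at h1
    have h2 := hι h1
    rw [h2, mul_inv_cancel_right]
  have hterm : ∀ i, c (Additive.ofMul (F.elt γ i)) =
      c (Additive.ofMul γ) +
        (c (Additive.ofMul (g i)) - c (Additive.ofMul (g (F.perm γ i)))) := by
    intro i
    rw [key, ofMul_mul, ofMul_mul, ofMul_inv, map_add, map_add, map_neg]
    abel
  have hperm : ∑ i : I, c (Additive.ofMul (g (F.perm γ i))) =
      ∑ i : I, c (Additive.ofMul (g i)) :=
    Equiv.sum_comp (F.permEquiv γ) (fun i => c (Additive.ofMul (g i)))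
  rw [Finset.sum_congr rfl fun i _ => hterm i, Finset.sum_add_distrib, Finset.sum_sub_distrib,
    hperm, sub_self, add_zero, Finset.sum_const, Finset.card_univ]

/-- Two realized wreath homs with distinct cosets and the same union of cosets induce the same
operator. -/
theorem op_eq_of_sameSet [Fintype I] [Fintype I'] {F : WreathHom Γ Γ' I}
    {F' : WreathHom Γ Γ' I'} {ι : Γ →* G} {ι' : Γ' →* G} {rep : I → G} {rep' : I' → G}
    (hF : F.Realizes ι ι' rep) (hF' : F'.Realizes ι ι' rep') (hι' : Function.Injective ι')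
    (hd : CosetsDistinct ι' rep) (hd' : CosetsDistinct ι' rep')
    (h : ∀ i', ∃ (i : I) (n : Γ'), rep' i' = ι' n * rep i)
    (h' : ∀ i, ∃ (i' : I') (n : Γ'), rep i = ι' n * rep' i')
    (A : Type*) [AddCommGroup A] :
    F'.op A = F.op A := by
  choose π n hπ using h
  have hinj : Function.Injective π := by
    intro a b hab
    apply hd' a b ((n a) * (n b)⁻¹)
    rw [hπ a, hπ b, hab, map_mul, map_inv, mul_assoc, inv_mul_cancel_left]
  have hsurj : Function.Surjective π := by
    intro i
    obtain ⟨i', m, hm⟩ := h' i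
    refine ⟨i', ?_⟩
    apply hd (π i') i ((n i')⁻¹ * m⁻¹)
    rw [hm, map_mul, map_inv, map_inv, mul_assoc, inv_mul_cancel_left, hπ i',
      inv_mul_cancel_left]
  exact op_eq_of_realizes hF hF' hι' hd (Equiv.ofBijective π ⟨hinj, hsurj⟩) n
    (fun i => hπ i) A

/-- Variant of `op_eq_of_sameSet`: one containment and equality of cardinalities. -/
theorem op_eq_of_card [Fintype I] [Fintype I'] {F : WreathHom Γ Γ' I}
    {F' : WreathHom Γ Γ' I'} {ι : Γ →* G} {ι' : Γ' →* G} {rep : I → G} {rep' : I' → G}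
    (hF : F.Realizes ι ι' rep) (hF' : F'.Realizes ι ι' rep') (hι' : Function.Injective ι')
    (hd : CosetsDistinct ι' rep) (hd' : CosetsDistinct ι' rep')
    (h : ∀ i', ∃ (i : I) (n : Γ'), rep' i' = ι' n * rep i)
    (hcard : Fintype.card I' = Fintype.card I)
    (A : Type*) [AddCommGroup A] :
    F'.op A = F.op A := by
  choose π n hπ using h
  have hinj : Function.Injective π := by
    intro a b hab
    apply hd' a b ((n a) * (n b)⁻¹)
    rw [hπ a, hπ b, hab, map_mul, map_inv, mul_assoc, inv_mul_cancel_left]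
  have hbij : Function.Bijective π :=
    (Fintype.bijective_iff_injective_and_card π).mpr ⟨hinj, hcard⟩
  exact op_eq_of_realizes hF hF' hι' hd (Equiv.ofBijective π hbij) n (fun i => hπ i) A

/-- **Commutation of a transfer with Hecke-type operators.**
`F` is the transfer along `j : Γ' → Γ` (realized inside `Γ` by the right coset representatives
`r`), `H` and `H'` are operators on `Hom(Γ, A)` and `Hom(Γ', A)` realized by families `α`, `α'`
in the ambient group with `α' ⊆ ι(Γ) α`, and `α' x * g ∈ ι(j Γ') α' x'` forces `g ∈ j Γ'`. -/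
theorem op_comm_of_transfer {X X' Y : Type*} [Fintype X] [Fintype X'] [Fintype Y]
    {ι : Γ →* G} (hι : Function.Injective ι) {j : Γ' →* Γ} (hj : Function.Injective j)
    {F : WreathHom Γ Γ' Y} {r : Y → Γ} (hF : F.Realizes (MonoidHom.id Γ) j r)
    (hr : CosetsDistinct j r) (hcover : ∀ g : Γ, ∃ (y : Y) (e : Γ'), g = j e * r y)
    {H : WreathHom Γ Γ X} {α : X → G} (hH : H.Realizes ι ι α) (hα : CosetsDistinct ι α)
    {H' : WreathHom Γ' Γ' X'} {α' : X' → G} (hH' : H'.Realizes (ι.comp j) (ι.comp j) α')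
    (hα' : CosetsDistinct (ι.comp j) α')
    (hA : ∀ x', ∃ (x : X) (τ : Γ), α' x' = ι τ * α x)
    (hLL : ∀ (x' x'' : X') (g : Γ) (n : Γ'), α' x' * ι g = ι (j n) * α' x'' → ∃ m, g = j m)
    (hcard : Fintype.card X' = Fintype.card X)
    (A : Type*) [AddCommGroup A] :
    (F.op A).comp (H'.op A) = (H.op A).comp (F.op A) := by
  rw [← op_comp, ← op_comp]
  have hF' : F.Realizes ι (ι.comp j) (fun y => ι (r y)) := by
    have := hF.map ι
    rwa [MonoidHom.comp_id] at this
  have h1 := hF'.comp hH'
  have h2 := hH.comp hF'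
  have hιj : Function.Injective (ι.comp j) := hι.comp hj
  refine op_eq_of_card h2 h1 hιj ?_ ?_ ?_ ?_ A
  · -- distinctness of `r y * α x`
    rintro ⟨y, x⟩ ⟨y', x'⟩ n h
    simp only at h
    have hx : x = x' := by
      apply hα x x' ((r y)⁻¹ * j n * r y')
      rw [map_mul, map_mul, map_inv, mul_assoc, mul_assoc]
      have h' : ι (r y) * α x = ι (j n) * (ι (r y') * α x') := h
      rw [← h', inv_mul_cancel_left]
    subst hx
    have hy : y = y' := by
      apply hr y y' n
      apply hι
      rw [map_mul]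
      rw [← mul_assoc] at h
      exact mul_right_cancel h
    rw [hy]
  · -- distinctness of `α' x * r y`
    rintro ⟨x, y⟩ ⟨x', y'⟩ n h
    simp only at h
    have h3 : α' x * ι (r y * (r y')⁻¹) = ι (j n) * α' x' := by
      rw [map_mul, map_inv, ← mul_assoc, h]
      simp [mul_assoc]
    obtain ⟨m, hm⟩ := hLL x x' _ n h3
    have hy : y = y' := by
      apply hr y y' m
      rw [← hm, inv_mul_cancel_right]
    subst hy
    have hx : x = x' := by
      apply hα' x x' n
      exact mul_right_cancel (by rw [mul_assoc]; exact h)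
    rw [hx]
  · -- containment
    rintro ⟨x', y⟩
    obtain ⟨x, τ, hτ⟩ := hA x'
    obtain ⟨y₁, e, he⟩ := hcover (τ * H.elt (r y) x)
    refine ⟨(y₁, H.perm (r y) x), e, ?_⟩
    show α' x' * ι (r y) = ι (j e) * (ι (r y₁) * α (H.perm (r y) x))
    rw [hτ, mul_assoc, hH (r y) x, ← mul_assoc, ← mul_assoc, ← map_mul, ← map_mul, he]
  · rw [Fintype.card_prod, Fintype.card_prod, hcard, mul_comm]

end WreathHom

end Fermat.Agent.LDeg
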